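import Mathlib
import Fermat.Agent.LT.T6.Spec
import Fermat.Agent.LT.T6.H60.EllUnrSpec
import Fermat.Agent.LT.H338.TreeDist

/-!
# Row LT, tower T6, leaf T6.13.2 (`OrbEllUnrC`) -- sub-spec (helper277), OFF-MAIN

Definitions + frozen Props of the sub-leaves of T6.13.2 (helper60 `T6/H60/EllUnrSpec.lean`,
sha256 18915887949ad7fb, on `T6/Spec.lean` 89f8f8b8).  Nothing is assumed; the assembly
`orbEllUnr_of_leaves` is in `T6/H277/OrbEllTop.lean`.

`γ ∈ GL₂(k)` regular, without eigenvalue in `k`, without centraliser element of determinant a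
uniformiser.  NORMAL FORM: `γ` is conjugate to `y = ϖ^j u`, `u = a + ϖ^r w`, `a ∈ 𝒪`,
`u, w ∈ GL₂(𝒪)`, and the characteristic polynomial of `w` has NO ROOT MODULO `ϖ`
(`χ_w(b) ∈ 𝒪ˣ` for every `b ∈ 𝒪`: `𝒪[w]` is the maximal order of the unramified quadratic
extension, `𝒪[u]` has conductor `ϖ^r`).

Sub-leaves:
* `PolyNFC`    (T6.13.2.1) the normal form on the level of `(tr γ, det γ)` (Newton + Hensel);
* `DiscUnitC`  (T6.13.2.2) no root modulo `ϖ` ⇒ the discriminant is a unit (finite residue field);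
* `CompanionC` (T6.13.2.3) a non-scalar `2 × 2` matrix is conjugate to its companion matrix;
* `FixBallC`   (T6.13.2.4) `x⁻¹ y x ∈ k^× GL₂(𝒪)` ⇔ `x` has Cartan distance `≤ r` from `1`;
* `TorusC`     (T6.13.2.5) the centraliser of `y` is `ϖ^ℤ × T^c`, `T^c` is a group;
* `BTTreeC`    (T6.13.2.6) INTERFACE to the tree of `GL₂(k)` (helper340 / helper338);
* `BallCountC` (T6.13.2.7) the ball of radius `r` of a `(q+1)`-regular tree has `ballCard q r`
  elements.
-/

set_option autoImplicit false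

open scoped Matrix

noncomputable section

namespace Fermat.Agent.LT.T6.H277

open Fermat.Agent.LT.T6 Fermat.Agent.LT.T6.H60 Fermat.Agent.LT.H338

/-- The quadratic polynomial `b² - t b + n` (the characteristic polynomial of a `2 × 2` matrix
with trace `t` and determinant `n`). -/
def chi277 {k : Type} [Field k] (t n b : k) : k := b ^ 2 - t * b + n

section Defs

variable {k : Type} [Field k] [Valued k Γ₀]

/-- The Cartan distance `a - b` of `g` (`cartan g = (a, b)`): the distance of the vertices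
`[1]` and `[g]` of the tree. -/
def gd277 (g : GL (Fin 2) k) : ℤ := (cartan g).1 - (cartan g).2

/-- **The normal form.**  `y = ϖ^j u`, `u = a + ϖ^r w`, `a ∈ 𝒪`, `u, w ∈ GL₂(𝒪)`, the
characteristic polynomial of `w` has no root modulo `ϖ`. -/
structure IsNF277 (ϖ : k) (j : ℤ) (r : ℕ) (a : k) (w u y : GL (Fin 2) k) : Prop where
  unif : Valued.v ϖ = WithZero.exp (-1 : ℤ)
  a_int : Valued.v a ≤ 1
  w_int : InU 0 w
  u_int : InU 0 u
  w_irr : ∀ b : k, Valued.v b ≤ 1 →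
    Valued.v (chi277 (w : Matrix (Fin 2) (Fin 2) k).trace (w : Matrix (Fin 2) (Fin 2) k).det b) = 1
  u_eq : (u : Matrix (Fin 2) (Fin 2) k)
    = a • (1 : Matrix (Fin 2) (Fin 2) k) + ϖ ^ r • (w : Matrix (Fin 2) (Fin 2) k)
  y_eq : (y : Matrix (Fin 2) (Fin 2) k) = ϖ ^ j • (u : Matrix (Fin 2) (Fin 2) k)

end Defs

/-- **T6.13.2.1 (PolyNF), Newton + Hensel.**  `X² - tX + n` without root in `k` whose norm form
`x² + t x y + n y²` never has the valuation of a uniformiser: then `t = ϖ^j (2a + ϖ^r t')`,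
`n = ϖ^{2j} (a² + a ϖ^r t' + ϖ^{2r} n')` with `a, t' ∈ 𝒪`, `n' ∈ 𝒪ˣ`,
`a² + a ϖ^r t' + ϖ^{2r} n' ∈ 𝒪ˣ` and `X² - t'X + n'` without root modulo `ϖ`. -/
def PolyNFC : Prop :=
  ∀ (k : Type) [Field k] [Valued k Γ₀] (q : ℕ), IsLocalField k q →
    ∀ t n : k, n ≠ 0 → (∀ x : k, x ^ 2 - t * x + n ≠ 0) →
      (∀ x y : k, Valued.v (x ^ 2 + t * x * y + n * y ^ 2) ≠ WithZero.exp (-1 : ℤ)) →
      ∃ (ϖ : k) (j : ℤ) (r : ℕ) (a t' n' : k),
        Valued.v ϖ = WithZero.exp (-1 : ℤ) ∧ Valued.v a ≤ 1 ∧ Valued.v t' ≤ 1 ∧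
        Valued.v n' = 1 ∧ (∀ b : k, Valued.v b ≤ 1 → Valued.v (chi277 t' n' b) = 1) ∧
        Valued.v (a ^ 2 + a * ϖ ^ r * t' + ϖ ^ (2 * r) * n') = 1 ∧
        t = ϖ ^ j * (2 * a + ϖ ^ r * t') ∧
        n = ϖ ^ (2 * j) * (a ^ 2 + a * ϖ ^ r * t' + ϖ ^ (2 * r) * n')

/-- **T6.13.2.2 (DiscUnit).**  An integral quadratic polynomial without root modulo `ϖ` has a
unit discriminant (residue characteristic `≠ 2`: evaluate at `t/2`; residue characteristic `2`:
squaring is bijective on the finite residue field, so `t` is a unit). -/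
def DiscUnitC : Prop :=
  ∀ (k : Type) [Field k] [Valued k Γ₀] (q : ℕ), IsLocalField k q →
    ∀ t n : k, Valued.v t ≤ 1 → Valued.v n ≤ 1 →
      (∀ b : k, Valued.v b ≤ 1 → Valued.v (chi277 t n b) = 1) →
      Valued.v (t ^ 2 - 4 * n : k) = (1 : Γ₀)

/-- **T6.13.2.3 (Companion), linear algebra.**  A `2 × 2` matrix over a field which is not a
scalar is conjugate to its companion matrix. -/
def CompanionC : Prop :=
  ∀ (k : Type) [Field k] (M : Matrix (Fin 2) (Fin 2) k),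
    (∀ c : k, M ≠ c • (1 : Matrix (Fin 2) (Fin 2) k)) →
    ∃ x : GL (Fin 2) k,
      ((x⁻¹ : GL (Fin 2) k) : Matrix (Fin 2) (Fin 2) k) * M * (x : Matrix (Fin 2) (Fin 2) k)
        = !![0, - M.det; 1, M.trace]

/-- **T6.13.2.4 (FixBall).**  For `y` in normal form the vertex `[x]` is fixed by `y` iff it has
distance `≤ r` from `[1]`. -/
def FixBallC : Prop :=
  ∀ (k : Type) [Field k] [Valued k Γ₀] (ϖ : k) (j : ℤ) (r : ℕ) (a : k) (w u y : GL (Fin 2) k),
    IsNF277 ϖ j r a w u y →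
    ∀ x : GL (Fin 2) k, gd277 (x⁻¹ * y * x) = 0 ↔ gd277 x ≤ (r : ℤ)

/-- **T6.13.2.5 (Torus).**  For `y` in normal form: every element of the centraliser of `y` is
`ϖ^n κ` with `κ` in the maximal compact subgroup `T^c` (integral trace, unit determinant), and
`T^c` is closed under multiplication. -/
def TorusC : Prop :=
  ∀ (k : Type) [Field k] [Valued k Γ₀] (ϖ : k) (j : ℤ) (r : ℕ) (a : k) (w u y : GL (Fin 2) k),
    IsNF277 ϖ j r a w u y →
    (∀ t : GL (Fin 2) k, t * y = y * t →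
      ∃ (n : ℤ) (κ : GL (Fin 2) k), InTwCentC (RingEquiv.refl k) y κ ∧
        (t : Matrix (Fin 2) (Fin 2) k) = ϖ ^ n • (κ : Matrix (Fin 2) (Fin 2) k)) ∧
    (∀ t t' : GL (Fin 2) k, InTwCentC (RingEquiv.refl k) y t → InTwCentC (RingEquiv.refl k) y t' →
      InTwCentC (RingEquiv.refl k) y (t * t'))

/-- **T6.13.2.6 (BTTree), INTERFACE.**  The tree of `GL₂(k)`: a set `V` with a surjection
`π : GL₂(k) → V` whose fibres are the cosets `g k^× GL₂(𝒪)`, and a tree distance `d` on `V`,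
`(q+1)`-regular, with `d (π g) (π h) = gd277 (g⁻¹ h)`. -/
def BTTreeC : Prop :=
  ∀ (k : Type) [Field k] [Valued k Γ₀] (q : ℕ), IsLocalField k q →
    ∃ (V : Type) (π : GL (Fin 2) k → V) (d : V → V → ℕ),
      Function.Surjective π ∧
      (∀ g h : GL (Fin 2) k, π g = π h ↔
        ∃ (z : k) (u : GL (Fin 2) k), InU 0 u ∧
          (h : Matrix (Fin 2) (Fin 2) k) = z • ((g * u : GL (Fin 2) k) : Matrix (Fin 2) (Fin 2) k)) ∧
      (∀ g h : GL (Fin 2) k, (d (π g) (π h) : ℤ) = gd277 (g⁻¹ * h)) ∧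
      IsTreeDist338 d ∧ ∀ v : V, {w | d v w = 1}.ncard = q + 1

/-- **T6.13.2.7 (BallCount), Mathlib + helper338 only.**  The ball of radius `r` of a
`(q+1)`-regular tree has `ballCard q r` elements. -/
def BallCountC : Prop :=
  ∀ (V : Type) (d : V → V → ℕ) (q : ℕ), IsTreeDist338 d →
    (∀ v : V, {w | d v w = 1}.ncard = q + 1) →
    ∀ (o : V) (r : ℕ), {x | d o x ≤ r}.ncard = ballCard q r

end Fermat.Agent.LT.T6.H277
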