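import Mathlib
import Fermat.Agent.LT.T6.H277.OrbEllSpec

/-!
# Row LT, tower T6, sub-leaf T6.13.2.3 `CompanionC` (helper277) -- OFF-MAIN

A non-scalar `2 × 2` matrix over a field is conjugate to its companion matrix.
-/

set_option autoImplicit false

open scoped Matrix

noncomputable section

namespace Fermat.Agent.LT.T6.H277

/-- A matrix with nonzero determinant as an element of `GL₂`. -/
def mk277 {k : Type} [Field k] (A : Matrix (Fin 2) (Fin 2) k) (h : A.det ≠ 0) : GL (Fin 2) k :=
  Matrix.GeneralLinearGroup.mkOfDetNeZero A h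

@[simp] theorem coe_mk277 {k : Type} [Field k] (A : Matrix (Fin 2) (Fin 2) k) (h : A.det ≠ 0) :
    ((mk277 A h : GL (Fin 2) k) : Matrix (Fin 2) (Fin 2) k) = A := rfl

/-- If `M x = x C` then `x⁻¹ M x = C`. -/
theorem conj_eq_of_mul_eq277 {k : Type} [Field k] (M C : Matrix (Fin 2) (Fin 2) k)
    (x : GL (Fin 2) k) (h : M * (x : Matrix (Fin 2) (Fin 2) k) = (x : Matrix (Fin 2) (Fin 2) k) * C) :
    ((x⁻¹ : GL (Fin 2) k) : Matrix (Fin 2) (Fin 2) k) * M * (x : Matrix (Fin 2) (Fin 2) k) = C := by
  rw [Matrix.mul_assoc, h, ← Matrix.mul_assoc, ← Units.val_mul, inv_mul_cancel, Units.val_one,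
    Matrix.one_mul]

/-- **T6.13.2.3 `CompanionC`.** -/
theorem companionC277 : CompanionC := by
  intro k _ M hM
  have hMe : M = !![M 0 0, M 0 1; M 1 0, M 1 1] := Matrix.eta_fin_two M
  have hdet : M.det = M 0 0 * M 1 1 - M 0 1 * M 1 0 := Matrix.det_fin_two M
  have htr : M.trace = M 0 0 + M 1 1 := Matrix.trace_fin_two M
  by_cases h10 : M 1 0 = 0
  · by_cases h01 : M 0 1 = 0
    · -- diagonal, distinct entries
      have hne : M 1 1 - M 0 0 ≠ 0 := by
        intro h
        apply hM (M 0 0)
        have h11 : M 1 1 = M 0 0 := by linear_combination h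
        rw [hMe]
        ext i j
        fin_cases i <;> fin_cases j <;> simp [h10, h01, h11, Matrix.one_apply]
      refine ⟨mk277 !![1, M 0 0; 1, M 1 1]
        (by rw [Matrix.det_fin_two_of]; simpa using hne), ?_⟩
      apply conj_eq_of_mul_eq277
      rw [coe_mk277, hdet, htr]
      conv_lhs => rw [hMe]
      ext i j
      fin_cases i <;> fin_cases j <;>
        simp [Matrix.mul_apply, Fin.sum_univ_two, h10, h01] <;> ring
    · refine ⟨mk277 !![0, M 0 1; 1, M 1 1]
        (by rw [Matrix.det_fin_two_of]; simpa using h01), ?_⟩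
      apply conj_eq_of_mul_eq277
      rw [coe_mk277, hdet, htr]
      conv_lhs => rw [hMe]
      ext i j
      fin_cases i <;> fin_cases j <;>
        simp [Matrix.mul_apply, Fin.sum_univ_two, h10] <;> ring
  · refine ⟨mk277 !![1, M 0 0; 0, M 1 0]
      (by rw [Matrix.det_fin_two_of]; simpa using h10), ?_⟩
    apply conj_eq_of_mul_eq277
    rw [coe_mk277, hdet, htr]
    conv_lhs => rw [hMe]
    ext i j
    fin_cases i <;> fin_cases j <;>
      simp [Matrix.mul_apply, Fin.sum_univ_two] <;> ring

end Fermat.Agent.LT.T6.H277
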