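import Mathlib
import Fermat.Agent.LT.T6.H277.OrbEllSpec
import Fermat.Agent.LT.T6.H277.Companion
import Fermat.Agent.LT.H129.CartanInv

/-!
# Row LT, tower T6, leaf T6.13.2: the normal form of `γ` from the leaves (helper277) -- OFF-MAIN

`exists_nf277 : PolyNFC → CompanionC → DiscUnitC → ` every regular `γ` without eigenvalue and
without centraliser element of determinant a uniformiser is conjugate to some `y` in normal form
(`IsNF277`), and `ordDet γ = 2 j`, `ordDisc γ = 2 j + 2 r`.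
-/

set_option autoImplicit false

open scoped Matrix

noncomputable section

namespace Fermat.Agent.LT.T6.H277

open Fermat.Agent.LT.T6 Fermat.Agent.LT.T6.H60 Fermat.Agent.LT.H129

section Val

variable {k : Type} [Field k] [Valued k Γ₀]

theorem v_zpow277 {ϖ : k} (hϖ : Valued.v ϖ = WithZero.exp (-1 : ℤ)) (n : ℤ) :
    Valued.v (ϖ ^ n) = WithZero.exp (-n) := by
  rw [map_zpow₀, hϖ, ← WithZero.exp_zsmul]
  congr 1
  simp

theorem v_pow277 {ϖ : k} (hϖ : Valued.v ϖ = WithZero.exp (-1 : ℤ)) (n : ℕ) :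
    Valued.v (ϖ ^ n) = WithZero.exp (-(n : ℤ)) := by
  rw [← zpow_natCast, v_zpow277 hϖ]

theorem unif_ne_zero277 {ϖ : k} (hϖ : Valued.v ϖ = WithZero.exp (-1 : ℤ)) : ϖ ≠ 0 := by
  intro h
  rw [h, map_zero] at hϖ
  exact WithZero.exp_ne_zero hϖ.symm

theorem v_pow_le_one277 {ϖ : k} (hϖ : Valued.v ϖ = WithZero.exp (-1 : ℤ)) (n : ℕ) :
    Valued.v (ϖ ^ n) ≤ 1 := by
  rw [v_pow277 hϖ, ← WithZero.exp_zero]
  exact WithZero.exp_le_exp.mpr (by omega)

/-- `InU 0` from integral entries and unit determinant. -/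
theorem inU_zero_of277 (g : GL (Fin 2) k)
    (hint : ∀ i j, Valued.v ((g : Matrix (Fin 2) (Fin 2) k) i j) ≤ 1)
    (hdet : Valued.v (g : Matrix (Fin 2) (Fin 2) k).det = 1) : InU 0 g := by
  rw [inU_zero_iff129]
  have h1 : IsInt129 (vO129 k) g := fun i j => (mem_vO129 _).mpr (hint i j)
  refine ⟨h1, isInt129_inv_of_det h1 ?_⟩
  rw [mem_vO129, map_inv₀, hdet, inv_one]

end Val

/-- The normal form of `γ` from the leaves. -/
theorem exists_nf277 (hP : PolyNFC) (hC : CompanionC) (hD : DiscUnitC)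
    {k : Type} [Field k] [Valued k Γ₀] {q : ℕ} (hk : IsLocalField k q)
    (γ : GL (Fin 2) k) (hE : ¬ HasEigen k γ) (hR : ¬ HasRamUnif k γ) :
    ∃ (ϖ : k) (j : ℤ) (r : ℕ) (a : k) (w u y x : GL (Fin 2) k),
      IsNF277 ϖ j r a w u y ∧ y = x⁻¹ * γ * x ∧ ordDet γ = 2 * j ∧
        ordDisc γ = 2 * j + 2 * (r : ℤ) := by
  set G : Matrix (Fin 2) (Fin 2) k := (γ : Matrix (Fin 2) (Fin 2) k) with hG
  have hGe : G = !![G 0 0, G 0 1; G 1 0, G 1 1] := Matrix.eta_fin_two G
  have hdetG : G.det = G 0 0 * G 1 1 - G 0 1 * G 1 0 := Matrix.det_fin_two G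
  have htrG : G.trace = G 0 0 + G 1 1 := Matrix.trace_fin_two G
  have hn0 : G.det ≠ 0 := by
    have := (Matrix.isUnit_iff_isUnit_det G).mp γ.isUnit
    exact this.ne_zero
  have hroot : ∀ x : k, x ^ 2 - G.trace * x + G.det ≠ 0 := fun x hx => hE ⟨x, hx⟩
  have hnorm : ∀ x y : k,
      Valued.v (x ^ 2 + G.trace * x * y + G.det * y ^ 2) ≠ WithZero.exp (-1 : ℤ) := by
    intro x y hxy
    apply hR
    set T : Matrix (Fin 2) (Fin 2) k := x • (1 : Matrix (Fin 2) (Fin 2) k) + y • G with hT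
    have hTdet : T.det = x ^ 2 + G.trace * x * y + G.det * y ^ 2 := by
      rw [Matrix.det_fin_two, hdetG, htrG, hT]
      simp [Matrix.add_apply, Matrix.smul_apply]
      ring
    have hT0 : T.det ≠ 0 := by
      intro h0
      rw [hTdet] at h0
      rw [h0, map_zero] at hxy
      exact WithZero.exp_ne_zero hxy.symm
    refine ⟨mk277 T hT0, ?_, ?_⟩
    · apply Units.ext
      rw [Units.val_mul, Units.val_mul, coe_mk277, ← hG, hT]
      simp [Matrix.add_mul, Matrix.mul_add]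
    · rw [coe_mk277, hTdet]; exact hxy
  obtain ⟨ϖ, j, r, a, t', n', hϖ, ha, ht', hn', hirr, hdu, ht, hn⟩ :=
    hP k q hk G.trace G.det hn0 hroot hnorm
  have hϖ0 : ϖ ≠ 0 := unif_ne_zero277 hϖ
  set P : k := ϖ ^ j with hPdef
  set Q : k := ϖ ^ r with hQdef
  have hP0 : P ≠ 0 := zpow_ne_zero _ hϖ0
  have hQ0 : Q ≠ 0 := pow_ne_zero _ hϖ0
  have hP2 : ϖ ^ (2 * j) = P ^ 2 := by
    rw [hPdef, ← zpow_natCast, ← zpow_mul, mul_comm]; rfl
  have hQ2 : ϖ ^ (2 * r) = Q ^ 2 := by
    rw [hQdef, ← pow_mul, mul_comm]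
  rw [hP2, hQ2] at hn
  rw [hQ2] at hdu
  have hn'0 : n' ≠ 0 := by
    intro h
    rw [h, map_zero] at hn'
    exact zero_ne_one hn'
  -- the matrix `M = ((γ / P) - a) / Q`
  set M : Matrix (Fin 2) (Fin 2) k :=
    Q⁻¹ • (P⁻¹ • G - a • (1 : Matrix (Fin 2) (Fin 2) k)) with hM
  have hGM : G = P • (a • (1 : Matrix (Fin 2) (Fin 2) k) + Q • M) := by
    rw [hM, smul_smul, mul_inv_cancel₀ hQ0, one_smul, add_sub_cancel, smul_smul,
      mul_inv_cancel₀ hP0, one_smul]
  have hMtr : M.trace = t' := by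
    rw [hM, Matrix.trace_smul, Matrix.trace_sub, Matrix.trace_smul, Matrix.trace_smul,
      Matrix.trace_one, ht]
    simp only [Fintype.card_fin, smul_eq_mul]
    field_simp
    ring
  have hMdet : M.det = n' := by
    have e1 : M.det = (Q⁻¹) ^ 2 * ((P⁻¹) ^ 2 * G.det - a * (P⁻¹ * G.trace) + a ^ 2) := by
      rw [hM, Matrix.det_fin_two, hdetG, htrG]
      simp [Matrix.sub_apply, Matrix.smul_apply]
      ring
    rw [e1, hn, ht]
    field_simp
    ring
  have hMns : ∀ c : k, M ≠ c • (1 : Matrix (Fin 2) (Fin 2) k) := by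
    intro c hc
    apply hE
    refine ⟨P * (a + Q * c), ?_⟩
    have hG' : G = (P * (a + Q * c)) • (1 : Matrix (Fin 2) (Fin 2) k) := by
      rw [hGM, hc, smul_smul, ← add_smul, smul_smul]
    have h1 : G.trace = 2 * (P * (a + Q * c)) := by
      rw [hG', Matrix.trace_smul, Matrix.trace_one]
      simp only [Fintype.card_fin, smul_eq_mul]
      push_cast; ring
    have h2 : G.det = (P * (a + Q * c)) ^ 2 := by
      rw [hG', Matrix.det_smul, Matrix.det_one]
      simp
    show (P * (a + Q * c)) ^ 2 - G.trace * (P * (a + Q * c)) + G.det = 0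
    rw [h1, h2]; ring
  obtain ⟨x, hx⟩ := hC k M hMns
  rw [hMdet, hMtr] at hx
  set W : Matrix (Fin 2) (Fin 2) k := !![0, - n'; 1, t'] with hW
  have hWdet : W.det = n' := by rw [hW, Matrix.det_fin_two_of]; ring
  have hWtr : W.trace = t' := by rw [hW, Matrix.trace_fin_two_of]; ring
  have hW0 : W.det ≠ 0 := by rw [hWdet]; exact hn'0
  set Um : Matrix (Fin 2) (Fin 2) k := a • (1 : Matrix (Fin 2) (Fin 2) k) + Q • W with hUm
  have hUdet : Um.det = a ^ 2 + a * Q * t' + Q ^ 2 * n' := by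
    rw [hUm, hW, Matrix.det_fin_two]
    simp [Matrix.add_apply, Matrix.smul_apply]
    ring
  have hU0 : Um.det ≠ 0 := by
    intro h
    rw [hUdet] at h
    rw [h, map_zero] at hdu
    exact zero_ne_one hdu
  have hvQ : Valued.v Q ≤ 1 := v_pow_le_one277 hϖ r
  have hy : ((x⁻¹ * γ * x : GL (Fin 2) k) : Matrix (Fin 2) (Fin 2) k) = P • Um := by
    rw [Units.val_mul, Units.val_mul, ← hG, hUm, ← hx]
    conv_lhs => rw [hGM]
    simp only [Matrix.mul_smul, Matrix.smul_mul, Matrix.mul_add, Matrix.add_mul, Matrix.mul_one]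
    rw [← Units.val_mul, inv_mul_cancel, Units.val_one]
  refine ⟨ϖ, j, r, a, mk277 W hW0, mk277 Um hU0, x⁻¹ * γ * x, x, ?_, rfl, ?_, ?_⟩
  · refine ⟨hϖ, ha, ?_, ?_, ?_, ?_, ?_⟩
    · apply inU_zero_of277
      · intro i j
        rw [coe_mk277, hW]
        fin_cases i <;> fin_cases j <;> simp [hn'.le, ht']
      · rw [coe_mk277, hWdet]; exact hn'
    · apply inU_zero_of277
      · intro i j
        rw [coe_mk277, hUm, hW]
        fin_cases i <;> fin_cases j
        · simpa using ha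
        · simp only [Matrix.add_apply, Matrix.smul_apply, Matrix.one_apply]
          simp [hn', hvQ]
        · simp only [Matrix.add_apply, Matrix.smul_apply, Matrix.one_apply]
          simp [hvQ]
        · simp only [Matrix.add_apply, Matrix.smul_apply, Matrix.one_apply]
          simp only [Fin.mk_one, Fin.isValue, ↓reduceIte, smul_eq_mul, Matrix.of_apply,
            Matrix.cons_val', Matrix.cons_val_one, Matrix.cons_val_fin_one, mul_one]
          refine le_trans (Valuation.map_add _ _ _) (max_le ha ?_)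
          rw [map_mul]
          exact mul_le_one' hvQ ht'
      · rw [coe_mk277, hUdet]; exact hdu
    · intro b hb
      rw [coe_mk277, hWtr, hWdet]
      exact hirr b hb
    · rw [coe_mk277, coe_mk277]
    · rw [coe_mk277]; exact hy
  · -- ordDet
    unfold ordDet
    rw [← hG, hn, map_mul, hdu, mul_one, map_pow, hPdef, v_zpow277 hϖ, ← WithZero.exp_nsmul,
      WithZero.log_exp]
    simp
  · -- ordDisc
    have hdisc : disc γ = P ^ 2 * Q ^ 2 * (t' ^ 2 - 4 * n') := by
      unfold disc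
      rw [← hG, hn, ht]; ring
    have hDu := hD k q hk t' n' ht' hn'.le hirr
    unfold ordDisc
    rw [hdisc, map_mul, map_mul, hDu, mul_one, map_pow, map_pow, hPdef, hQdef,
      v_zpow277 hϖ, v_pow277 hϖ, ← WithZero.exp_nsmul, ← WithZero.exp_nsmul,
      ← WithZero.exp_add, WithZero.log_exp]
    simp
    ring

end Fermat.Agent.LT.T6.H277
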