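import Mathlib
import Fermat.Agent.LT.T6.H277.OrbEllSpec
import Fermat.Agent.LT.T6.H277.NormalForm
import Fermat.Agent.LT.T6.H227.Unfold
import Fermat.Agent.LT.T6.H944.OrbSumUniq
import Fermat.Agent.LT.H129.CartanInv

/-!
# Row LT, tower T6, leaf T6.13.2: the unfolding datum of the normal form (helper277) -- OFF-MAIN

For `y` in normal form (`IsNF277`), `TorusC` and a section `σ` of the projection `π` onto the
vertices of the tree give the `UnfoldData` of helper227 (`Lam = ϖ^ℤ`, `X = range σ`), hence the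
orbit sum at `y` is the unweighted sum over the vertices.
-/

set_option autoImplicit false

open scoped Matrix

noncomputable section

namespace Fermat.Agent.LT.T6.H277

open Fermat.Agent.LT.T6 Fermat.Agent.LT.T6.H60 Fermat.Agent.LT.H129 Fermat.Agent.LT.T6.H227
  Fermat.Agent.LT.T6.H944

section Basic

variable {k : Type} [Field k]

theorem glAut_refl277 (g : GL (Fin 2) k) : glAut (RingEquiv.refl k) g = g := by
  apply Units.ext
  ext i j
  simp [glAut]

/-- The scalar matrix `z` as an element of `GL₂`. -/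
def scal277 (z : k) (hz : z ≠ 0) : GL (Fin 2) k :=
  mk277 (z • (1 : Matrix (Fin 2) (Fin 2) k)) (by
    rw [Matrix.det_smul, Matrix.det_one, mul_one]
    exact pow_ne_zero _ hz)

@[simp] theorem coe_scal277 (z : k) (hz : z ≠ 0) :
    ((scal277 z hz : GL (Fin 2) k) : Matrix (Fin 2) (Fin 2) k)
      = z • (1 : Matrix (Fin 2) (Fin 2) k) := rfl

theorem scal_mul277 (z : k) (hz : z ≠ 0) (g : GL (Fin 2) k) :
    ((scal277 z hz * g : GL (Fin 2) k) : Matrix (Fin 2) (Fin 2) k)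
      = z • (g : Matrix (Fin 2) (Fin 2) k) := by
  rw [Units.val_mul, coe_scal277, Matrix.smul_mul, Matrix.one_mul]

theorem scal_comm277 (z : k) (hz : z ≠ 0) (g : GL (Fin 2) k) :
    scal277 z hz * g = g * scal277 z hz := by
  apply Units.ext
  rw [Units.val_mul, Units.val_mul, coe_scal277, Matrix.smul_mul, Matrix.one_mul,
    Matrix.mul_smul, Matrix.mul_one]

/-- `g` is a scalar matrix `ϖ^n`. -/
def Lam277 (ϖ : k) (g : GL (Fin 2) k) : Prop :=
  ∃ n : ℤ, (g : Matrix (Fin 2) (Fin 2) k) = ϖ ^ n • (1 : Matrix (Fin 2) (Fin 2) k)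

theorem lam_eq_scal277 {ϖ : k} (hϖ : ϖ ≠ 0) {g : GL (Fin 2) k} {n : ℤ}
    (h : (g : Matrix (Fin 2) (Fin 2) k) = ϖ ^ n • (1 : Matrix (Fin 2) (Fin 2) k)) :
    g = scal277 (ϖ ^ n) (zpow_ne_zero _ hϖ) :=
  Units.ext h

theorem scal_one277 (h : (1 : k) ≠ 0) : scal277 (1 : k) h = 1 := by
  apply Units.ext
  rw [coe_scal277, one_smul, Units.val_one]

theorem scal_mul_scal277 (z z' : k) (hz : z ≠ 0) (hz' : z' ≠ 0) :
    scal277 z hz * scal277 z' hz' = scal277 (z * z') (mul_ne_zero hz hz') := by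
  apply Units.ext
  rw [scal_mul277, coe_scal277, coe_scal277, smul_smul]

theorem scal_inv277 (z : k) (hz : z ≠ 0) :
    (scal277 z hz)⁻¹ = scal277 z⁻¹ (inv_ne_zero hz) := by
  rw [inv_eq_iff_mul_eq_one, scal_mul_scal277]
  apply Units.ext
  rw [coe_scal277, mul_inv_cancel₀ hz, one_smul, Units.val_one]

theorem trace_inv277 (t : GL (Fin 2) k) :
    ((t⁻¹ : GL (Fin 2) k) : Matrix (Fin 2) (Fin 2) k).trace
      = (t : Matrix (Fin 2) (Fin 2) k).trace * ((t : Matrix (Fin 2) (Fin 2) k).det)⁻¹ := by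
  rw [Matrix.coe_units_inv, Matrix.inv_def, Matrix.trace_smul, Matrix.adjugate_fin_two,
    Matrix.trace_fin_two_of, Matrix.trace_fin_two, Ring.inverse_eq_inv', smul_eq_mul]
  ring

theorem det_inv277 (t : GL (Fin 2) k) :
    ((t⁻¹ : GL (Fin 2) k) : Matrix (Fin 2) (Fin 2) k).det
      = ((t : Matrix (Fin 2) (Fin 2) k).det)⁻¹ := by
  have h : (t : Matrix (Fin 2) (Fin 2) k).det
      * ((t⁻¹ : GL (Fin 2) k) : Matrix (Fin 2) (Fin 2) k).det = 1 := by
    rw [← Matrix.det_mul, ← Units.val_mul, mul_inv_cancel, Units.val_one, Matrix.det_one]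
  exact (eq_inv_of_mul_eq_one_right h)

end Basic

section Orb

variable {k : Type} [Field k] [Valued k Γ₀]

/-- The orbit sum only depends on the conjugacy class. -/
theorem isOrbSum_conj277 (n : ℕ) (φ : GL (Fin 2) k → ℂ) (γ x : GL (Fin 2) k) (c : ℂ)
    (h : IsOrbSum n φ γ c) : IsOrbSum n φ (x⁻¹ * γ * x) c := by
  obtain ⟨R, h1, h2, h3, h4⟩ := h
  refine ⟨R, ?_, h2, ?_, h4⟩
  · intro y hy
    obtain ⟨g, hg⟩ := h1 y hy
    refine ⟨x⁻¹ * g, ?_⟩
    rw [hg, glAut_refl277, glAut_refl277]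
    simp [mul_assoc]
  · intro y hy hφ
    obtain ⟨g, hg⟩ := hy
    apply h3 y ⟨x * g, ?_⟩ hφ
    rw [hg, glAut_refl277, glAut_refl277]
    simp [mul_assoc]

theorem inU_zero_one277 : InU 0 (1 : GL (Fin 2) k) := by
  rw [inU_zero_iff129]
  exact isMaxCpt129_one _

theorem inU_zero_trace277 {u : GL (Fin 2) k} (hu : InU 0 u) :
    Valued.v (u : Matrix (Fin 2) (Fin 2) k).trace ≤ 1 := by
  rw [inU_zero_iff129] at hu
  rw [Matrix.trace_fin_two]
  exact le_trans (Valuation.map_add _ _ _) (max_le (hu.1 0 0) (hu.1 1 1))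

theorem inU_zero_det277 {u : GL (Fin 2) k} (hu : InU 0 u) :
    Valued.v (u : Matrix (Fin 2) (Fin 2) k).det = 1 := by
  rw [inU_zero_iff129] at hu
  exact valued_det_of_isMaxCpt129 hu

/-- A scalar unit lies in `U(0)`. -/
theorem inU_zero_scal277 (z : k) (hz : z ≠ 0) (hv : Valued.v z = 1) : InU 0 (scal277 z hz) := by
  apply inU_zero_of277
  · intro i j
    rw [coe_scal277]
    fin_cases i <;> fin_cases j <;> simp [hv]
  · rw [coe_scal277, Matrix.det_smul, Matrix.det_one, mul_one, map_pow, hv, one_pow]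

/-- Every nonzero `z` is `ϖ^n ε` with `ε` a unit. -/
theorem exists_zpow_unit277 {ϖ : k} (hϖ : Valued.v ϖ = WithZero.exp (-1 : ℤ)) (z : k)
    (hz : z ≠ 0) : ∃ (n : ℤ) (ε : k), Valued.v ε = 1 ∧ z = ϖ ^ n * ε := by
  have hvz : Valued.v z ≠ 0 := by rwa [ne_eq, map_eq_zero]
  have hϖ0 : ϖ ≠ 0 := unif_ne_zero277 hϖ
  refine ⟨- WithZero.log (Valued.v z), z / ϖ ^ (- WithZero.log (Valued.v z)), ?_, ?_⟩
  · rw [map_div₀, v_zpow277 hϖ, neg_neg, WithZero.exp_log hvz]
    exact div_self hvz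
  · field_simp


theorem nf_det277 {ϖ : k} {j : ℤ} {r : ℕ} {a : k} {w u y : GL (Fin 2) k}
    (hNF : IsNF277 ϖ j r a w u y) :
    Valued.v (y : Matrix (Fin 2) (Fin 2) k).det = WithZero.exp (-(2 * j)) := by
  rw [hNF.y_eq, Matrix.det_smul, map_mul, inU_zero_det277 hNF.u_int, mul_one, map_pow,
    v_zpow277 hNF.unif, ← WithZero.exp_nsmul]
  congr 1
  simp

/-- **The unfolding datum** of `y` in normal form. -/
theorem unfoldData277 (hT : TorusC) {ϖ : k} {j : ℤ} {r : ℕ} {a : k} {w u y : GL (Fin 2) k}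
    (hNF : IsNF277 ϖ j r a w u y) {V : Type} (π : GL (Fin 2) k → V) (σ : V → GL (Fin 2) k)
    (hσ : ∀ v, π (σ v) = v)
    (hπ : ∀ g h : GL (Fin 2) k, π g = π h ↔
      ∃ (z : k) (u : GL (Fin 2) k), InU 0 u ∧
        (h : Matrix (Fin 2) (Fin 2) k) = z • ((g * u : GL (Fin 2) k) : Matrix (Fin 2) (Fin 2) k)) :
    UnfoldData (glAut (RingEquiv.refl k)) (InU 0) (InTwCentC (RingEquiv.refl k)) y (Lam277 ϖ)
      (Set.range σ) := by
  have hϖ0 : ϖ ≠ 0 := unif_ne_zero277 hNF.unif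
  obtain ⟨hT1, hT2⟩ := hT k ϖ j r a w u y hNF
  refine
    { U_one := inU_zero_one277
      U_mul := inU_mul944 0
      U_inv := inU_inv944 0
      C_cent := fun t ht => ht.1
      C_mul := hT2
      C_inv := ?_
      C_conj := fun x t => inTwCentC_conj944 (RingEquiv.refl k) y x t
      U_C := ?_
      Lam_mul := ?_
      Lam_inv := ?_
      Lam_cent := ?_
      Lam_C := ?_
      decomp := ?_
      cover := ?_
      uniq := ?_ }
  · -- C_inv
    rintro t ⟨h1, h2, h3⟩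
    refine ⟨?_, ?_, ?_⟩
    · unfold InTwCent at h1 ⊢
      rw [glAut_refl277] at h1 ⊢
      rw [inv_inv]
      have : y = t * (t⁻¹ * y * t) * t⁻¹ := by simp [mul_assoc]
      rw [h1] at this
      exact this.symm
    · rw [trace_inv277, map_mul, map_inv₀, h3, inv_one, mul_one]; exact h2
    · rw [det_inv277, map_inv₀, h3, inv_one]
  · -- U_C
    intro x u hu h
    exact ⟨h, inU_zero_trace277 hu, inU_zero_det277 hu⟩
  · -- Lam_mul
    rintro g h ⟨n, hn⟩ ⟨m, hm⟩
    refine ⟨n + m, ?_⟩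
    rw [Units.val_mul, hn, hm, Matrix.smul_mul, Matrix.one_mul, smul_smul, zpow_add₀ hϖ0]
  · -- Lam_inv
    rintro g ⟨n, hn⟩
    refine ⟨-n, ?_⟩
    rw [lam_eq_scal277 hϖ0 hn, scal_inv277, coe_scal277, zpow_neg]
  · -- Lam_cent
    rintro l ⟨n, hn⟩
    rw [lam_eq_scal277 hϖ0 hn]
    unfold twc
    rw [glAut_refl277, mul_assoc, ← scal_comm277, ← mul_assoc, inv_mul_cancel, one_mul]
  · -- Lam_C
    rintro l ⟨n, hn⟩ ⟨-, -, h3⟩
    rw [hn, Matrix.det_smul, Matrix.det_one, mul_one, map_pow, v_zpow277 hNF.unif,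
      ← WithZero.exp_nsmul, ← WithZero.exp_zero] at h3
    have h4 := WithZero.exp_injective h3
    have hn0 : n = 0 := by
      simp at h4
      exact h4
    apply Units.ext
    rw [hn, hn0, zpow_zero, one_smul, Units.val_one]
  · -- decomp
    intro t ht
    have hcomm : t * y = y * t := by
      unfold twc at ht
      rw [glAut_refl277] at ht
      have : t * (t⁻¹ * y * t) = t * y := by rw [ht]
      rw [← this]; simp [mul_assoc]
    obtain ⟨n, κ, hκ, htκ⟩ := hT1 t hcomm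
    refine ⟨scal277 (ϖ ^ n) (zpow_ne_zero _ hϖ0), κ, ⟨n, rfl⟩, hκ, ?_⟩
    apply Units.ext
    rw [scal_mul277, htκ]
  · -- cover
    intro g
    refine ⟨σ (π g), ⟨π g, rfl⟩, ?_⟩
    obtain ⟨z, u', hu', hz⟩ := (hπ (σ (π g)) g).mp (hσ (π g))
    have hz0 : z ≠ 0 := by
      intro h0
      rw [h0, zero_smul] at hz
      have := (Matrix.isUnit_iff_isUnit_det (g : Matrix (Fin 2) (Fin 2) k)).mp g.isUnit
      rw [hz, Matrix.det_zero] at this
      exact not_isUnit_zero this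
    obtain ⟨n, ε, hε, hzε⟩ := exists_zpow_unit277 hNF.unif z hz0
    have hε0 : ε ≠ 0 := by
      intro h0
      rw [h0, map_zero] at hε
      exact zero_ne_one hε
    refine ⟨scal277 (ϖ ^ n) (zpow_ne_zero _ hϖ0), scal277 ε hε0 * u', ⟨n, rfl⟩,
      inU_mul944 0 _ _ (inU_zero_scal277 ε hε0 hε) hu', ?_⟩
    apply Units.ext
    rw [hz, mul_assoc, scal_mul277, ← mul_assoc, ← scal_comm277, mul_assoc, scal_mul277,
      smul_smul, hzε]
  · -- uniq
    rintro x ⟨v, rfl⟩ x' ⟨v', rfl⟩ ⟨l, u', ⟨n, hn⟩, hu', h⟩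
    have : π (σ v) = π (σ v') := by
      rw [hπ]
      refine ⟨ϖ ^ n, u', hu', ?_⟩
      rw [h, mul_assoc, lam_eq_scal277 hϖ0 hn, scal_mul277]
    rw [hσ, hσ] at this
    rw [this]

end Orb

end Fermat.Agent.LT.T6.H277
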