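import Mathlib
import Fermat.Agent.LT.T6.H277.OrbEllSpec
import Fermat.Agent.LT.T6.H277.Companion
import Fermat.Agent.LT.T6.H277.NormalForm
import Fermat.Agent.LT.T6.H277.OrbEllUnfold
import Fermat.Agent.LT.H338.TreeCount

/-!
# Row LT, tower T6, leaf T6.13.2 `OrbEllUnrC` from its sub-leaves (helper277) -- OFF-MAIN

`orbEllUnr_of_leaves : PolyNFC → DiscUnitC → CompanionC → FixBallC → TorusC → BTTreeC →
BallCountC → H60.OrbEllUnrC`, and `orbEllUnr_of_leaves' ` with `CompanionC` discharged.

The orbit sum at `γ` is the orbit sum at the normal form `y` (`isOrbSum_conj277`), which unfolds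
(helper227 `orbSum_unfold`, datum `unfoldData277`) to the sum of `f (cartan (x⁻¹ y x))` over the
vertices `[x]` of the tree; the number of vertices with a given Cartan invariant is computed by
helper338 `ncard_disp_even338` from the number `ballCard q r` of fixed vertices (`FixBallC`,
`BallCountC`).
-/

set_option autoImplicit false

open scoped Matrix

noncomputable section

namespace Fermat.Agent.LT.T6.H277

open Fermat.Agent.LT.T6 Fermat.Agent.LT.T6.H60 Fermat.Agent.LT.H129 Fermat.Agent.LT.T6.H227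
  Fermat.Agent.LT.T6.H944 Fermat.Agent.LT.H338

section Count

variable {k : Type} [Field k] [Valued k Γ₀]

theorem cartan_sum277 (g : GL (Fin 2) k) :
    (cartan g).1 + (cartan g).2
      = - WithZero.log (Valued.v (g : Matrix (Fin 2) (Fin 2) k).det) := by
  unfold cartan
  ring

omit [Valued k Γ₀] in
theorem det_conj277 (x y : GL (Fin 2) k) :
    ((x⁻¹ * y * x : GL (Fin 2) k) : Matrix (Fin 2) (Fin 2) k).det
      = (y : Matrix (Fin 2) (Fin 2) k).det := by
  rw [Units.val_mul, Units.val_mul, Matrix.det_mul, Matrix.det_mul, det_inv277]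
  have h0 : (x : Matrix (Fin 2) (Fin 2) k).det ≠ 0 :=
    ((Matrix.isUnit_iff_isUnit_det _).mp x.isUnit).ne_zero
  field_simp

theorem ballCard_pos277 (q r : ℕ) : 0 < ballCard q r := by
  unfold ballCard
  omega

/-- **The count.**  The number of vertices `v` with `cartan ((σ v)⁻¹ y (σ v)) = lam` is
`wGeo q r j lam`. -/
theorem count277 (hF : FixBallC) (hN : BallCountC) {q : ℕ} (hq : 1 < q)
    {ϖ : k} {j : ℤ} {r : ℕ} {a : k} {w u y : GL (Fin 2) k}
    (hNF : IsNF277 ϖ j r a w u y) {V : Type} (π : GL (Fin 2) k → V) (σ : V → GL (Fin 2) k)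
    (hσ : ∀ v, π (σ v) = v) (d : V → V → ℕ)
    (hdπ : ∀ g h : GL (Fin 2) k, (d (π g) (π h) : ℤ) = gd277 (g⁻¹ * h))
    (hd : IsTreeDist338 d) (hreg : ∀ v : V, {w | d v w = 1}.ncard = q + 1) (lam : ℤ × ℤ) :
    {v : V | cartan ((σ v)⁻¹ * y * σ v) = lam}.Finite ∧
      (({v : V | cartan ((σ v)⁻¹ * y * σ v) = lam}.ncard : ℕ) : ℂ) = wGeo q r j lam := by
  set g : V → V := fun v => π (y * σ v) with hgdef
  have hgd : ∀ v, (d v (g v) : ℤ) = gd277 ((σ v)⁻¹ * y * σ v) := by
    intro v
    have := hdπ (σ v) (y * σ v)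
    rw [hσ, ← mul_assoc] at this
    exact this
  have hg : ∀ v v', d (g v) (g v') = d v v' := by
    intro v v'
    have h1 := hdπ (y * σ v) (y * σ v')
    have h2 := hdπ (σ v) (σ v')
    rw [hσ, hσ] at h2
    have e : (y * σ v)⁻¹ * (y * σ v') = (σ v)⁻¹ * σ v' := by
      rw [mul_inv_rev, mul_assoc, inv_mul_cancel_left]
    rw [e] at h1
    have : ((d (g v) (g v') : ℕ) : ℤ) = (d v v' : ℤ) := by rw [h2]; exact h1
    exact_mod_cast this
  set o : V := π 1 with ho
  have hfix_iff : ∀ v, g v = v ↔ d o v ≤ r := by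
    intro v
    have h1 : g v = v ↔ d v (g v) = 0 := by
      rw [hd.eq_zero]; exact eq_comm
    have h2 : (d v (g v) = 0) ↔ gd277 ((σ v)⁻¹ * y * σ v) = 0 := by
      rw [← hgd v]; exact Int.natCast_eq_zero.symm
    have h3 := hF k ϖ j r a w u y hNF (σ v)
    have h4 : (d o v : ℤ) = gd277 (σ v) := by
      have := hdπ 1 (σ v)
      rw [hσ, inv_one, one_mul] at this
      exact this
    rw [h1, h2, h3, ← h4]
    exact Int.ofNat_le
  have hfixset : {v | g v = v} = {v | d o v ≤ r} := by
    ext v; exact hfix_iff v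
  have hcard : {v | g v = v}.ncard = ballCard q r := by
    rw [hfixset]; exact hN V d q hd hreg o r
  have hfin : {v | g v = v}.Finite :=
    Set.finite_of_ncard_ne_zero (by rw [hcard]; exact (ballCard_pos277 q r).ne')
  have hoo : g o = o := by
    rw [hfix_iff, (hd.eq_zero o o).mpr rfl]; exact Nat.zero_le r
  have hsum : ∀ v, (cartan ((σ v)⁻¹ * y * σ v)).1 + (cartan ((σ v)⁻¹ * y * σ v)).2 = 2 * j := by
    intro v
    rw [cartan_sum277, det_conj277, nf_det277 hNF, WithZero.log_exp]
    ring
  have hiff : ∀ v, cartan ((σ v)⁻¹ * y * σ v) = lam ↔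
      (lam.1 + lam.2 = 2 * j ∧ (d v (g v) : ℤ) = lam.1 - lam.2) := by
    intro v
    have h1 := hsum v
    have h2 := hgd v
    unfold gd277 at h2
    constructor
    · intro h
      rw [h] at h1 h2
      exact ⟨h1, h2⟩
    · rintro ⟨h3, h4⟩
      apply Prod.ext
      · omega
      · omega
  have hq0 : 0 < q := by omega
  by_cases hs : lam.1 + lam.2 = 2 * j
  · rcases lt_trichotomy lam.2 lam.1 with hlt | heq | hgt
    · -- `lam.2 < lam.1`
      obtain ⟨e, he⟩ : ∃ e : ℕ, lam.1 - j = (e : ℤ) + 1 := by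
        refine ⟨(lam.1 - j - 1).toNat, ?_⟩
        rw [Int.toNat_of_nonneg (by omega)]; ring
      have hset : {v : V | cartan ((σ v)⁻¹ * y * σ v) = lam} = {v | d v (g v) = 2 * (e + 1)} := by
        ext v
        rw [Set.mem_ofPred_eq, Set.mem_ofPred_eq, hiff]
        constructor
        · rintro ⟨-, h⟩
          omega
        · intro h
          refine ⟨hs, ?_⟩
          omega
      have hcnt := ncard_disp_even338 hd q hreg g hg o hoo hfin e
      rw [hcard] at hcnt
      have hle : ballCard q r ≤ q * ballCard q r + 2 := by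
        have := Nat.le_mul_of_pos_left (ballCard q r) hq0
        omega
      have hpos : 0 < (q * ballCard q r + 2 - ballCard q r) * q ^ e := by
        apply Nat.mul_pos
        · have := Nat.le_mul_of_pos_left (ballCard q r) hq0
          omega
        · exact pow_pos hq0 e
      rw [hset]
      refine ⟨Set.finite_of_ncard_ne_zero (by rw [hcnt]; exact hpos.ne'), ?_⟩
      rw [hcnt]
      unfold wGeo wFix
      rw [if_pos hs, if_neg (by omega), if_pos hlt]
      have he' : (lam.1 - j).toNat - 1 = e := by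
        rw [he]; omega
      rw [he']
      push_cast [Nat.cast_sub hle]
      ring
    · -- `lam.1 = lam.2`
      have hset : {v : V | cartan ((σ v)⁻¹ * y * σ v) = lam} = {v | g v = v} := by
        ext v
        rw [Set.mem_ofPred_eq, Set.mem_ofPred_eq, hiff]
        have h1 : g v = v ↔ d v (g v) = 0 := by
          rw [hd.eq_zero]; exact eq_comm
        rw [h1]
        constructor
        · rintro ⟨-, h⟩
          omega
        · intro h
          refine ⟨hs, ?_⟩
          omega
      rw [hset]
      refine ⟨hfin, ?_⟩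
      rw [hcard]
      unfold wGeo wFix
      rw [if_pos hs, if_pos heq.symm]
    · -- `lam.1 < lam.2`
      have hset : {v : V | cartan ((σ v)⁻¹ * y * σ v) = lam} = ∅ := by
        ext v
        rw [Set.mem_ofPred_eq, hiff]
        simp only [Set.mem_empty_iff_false, iff_false]
        rintro ⟨-, h⟩
        omega
      rw [hset]
      refine ⟨Set.finite_empty, ?_⟩
      unfold wGeo wFix
      rw [if_pos hs, if_neg (by omega), if_neg (by omega)]
      simp
  · have hset : {v : V | cartan ((σ v)⁻¹ * y * σ v) = lam} = ∅ := by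
      ext v
      rw [Set.mem_ofPred_eq, hiff]
      simp only [Set.mem_empty_iff_false, iff_false]
      rintro ⟨h, -⟩
      exact hs h
    rw [hset]
    refine ⟨Set.finite_empty, ?_⟩
    unfold wGeo wFix
    rw [if_neg hs]
    simp

end Count

/-- **T6.13.2 `OrbEllUnrC` from its sub-leaves.** -/
theorem orbEllUnr_of_leaves (hP : PolyNFC) (hD : DiscUnitC) (hC : CompanionC) (hF : FixBallC)
    (hT : TorusC) (hB : BTTreeC) (hN : BallCountC) : OrbEllUnrC := by
  intro k _ _ q hk γ _hreg hE hR
  obtain ⟨ϖ, j, r, a, w, u, y, x, hNF, hy, hdet, hdisc⟩ := exists_nf277 hP hC hD hk γ hE hR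
  refine ⟨j, r, hdet, hdisc, ?_⟩
  intro f c' hc'
  have hc'' : IsOrbSum 0 (fun g => f (cartan g)) y c' := by
    rw [hy]; exact isOrbSum_conj277 0 _ γ x c' hc'
  obtain ⟨V, π, d, hsurj, hπ, hdπ, hd, hreg⟩ := hB k q hk
  set σ := Function.surjInv hsurj with hσdef
  have hσ : ∀ v, π (σ v) = v := Function.surjInv_eq hsurj
  have hσinj : Function.Injective σ := Function.injective_surjInv hsurj
  have D := unfoldData277 hT hNF π σ hσ hπ
  have hq := one_lt_of_isLocalField hk
  have hcount := count277 hF hN hq hNF π σ hσ d hdπ hd hreg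
  set F : V → ℤ × ℤ := fun v => cartan ((σ v)⁻¹ * y * σ v) with hFdef
  have hfinS : {v : V | F v ∈ f.support}.Finite := by
    have : {v : V | F v ∈ f.support} = ⋃ lam ∈ f.support, {v | F v = lam} := by
      ext v; simp
    rw [this]
    exact Set.Finite.biUnion f.support.finite_toSet (fun lam _ => (hcount lam).1)
  classical
  set Sv : Finset V := hfinS.toFinset with hSv
  have hmemSv : ∀ v, v ∈ Sv ↔ F v ∈ f.support := by
    intro v
    rw [hSv, Set.Finite.mem_toFinset]; rfl
  have hφ : ∀ u' y' : GL (Fin 2) k, InU 0 u' →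
      (fun g => f (cartan g)) (u'⁻¹ * y' * glAut (RingEquiv.refl k) u')
        = (fun g => f (cartan g)) y' := by
    intro u' y' hu'
    simp only
    rw [glAut_refl277, cartan_mul129 (inU_zero_inv129 hu') hu']
  have hunf := orbSum_unfold D (fun g => f (cartan g)) hφ c' hc'' (Sv.image σ)
    (by
      intro x hx
      obtain ⟨v, -, rfl⟩ := Finset.mem_image.mp hx
      exact ⟨v, rfl⟩)
    (by
      rintro x ⟨v, rfl⟩ hne
      apply Finset.mem_image_of_mem
      rw [hmemSv, Finsupp.mem_support_iff]
      simp only [glAut_refl277] at hne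
      exact hne)
  rw [hunf, Finset.sum_image (fun a _ b _ h => hσinj h)]
  simp only [glAut_refl277]
  have hmaps : ∀ v ∈ Sv, F v ∈ f.support := fun v hv => (hmemSv v).mp hv
  rw [← Finset.sum_fiberwise_of_maps_to hmaps (fun v => f (F v))]
  unfold Finsupp.sum
  apply Finset.sum_congr rfl
  intro lam hlam
  have h1 : ∀ v ∈ Sv.filter (fun v => F v = lam), f (F v) = f lam := by
    intro v hv
    rw [(Finset.mem_filter.mp hv).2]
  rw [Finset.sum_congr rfl h1, Finset.sum_const, nsmul_eq_mul, mul_comm]
  congr 1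
  rw [← (hcount lam).2]
  congr 1
  rw [← Set.ncard_coe_finset]
  congr 1
  ext v
  simp only [Finset.coe_filter, Set.mem_ofPred_eq]
  constructor
  · rintro ⟨-, h⟩; exact h
  · intro h
    refine ⟨?_, h⟩
    rw [hmemSv]
    have : F v = lam := h
    rw [this]; exact hlam

/-- **T6.13.2 `OrbEllUnrC`** from the sub-leaves which are still open (`CompanionC` is
`companionC277`). -/
theorem orbEllUnr_of_leaves' (hP : PolyNFC) (hD : DiscUnitC) (hF : FixBallC)
    (hT : TorusC) (hB : BTTreeC) (hN : BallCountC) : OrbEllUnrC :=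
  orbEllUnr_of_leaves hP hD companionC277 hF hT hB hN

end Fermat.Agent.LT.T6.H277
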