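import Mathlib
import Fermat.Agent.LT.T6.H277.OrbEllTop
import Fermat.Agent.LT.T6.H277.H546.PolyNF
import Fermat.Agent.LT.T6.H926.DiscUnit
import Fermat.Agent.LT.T6.H69.FixBall
import Fermat.Agent.LT.T6.H439.BallCount
import Fermat.Agent.LT.T6.H293.BTTree

/-!
# Row LT, tower T6, leaf T6.13.2 `OrbEllUnrC`: integration of the DONE sub-leaves (helper277)

OFF-MAIN.  `orbEllUnr_of_torus277 : TorusC → H60.OrbEllUnrC`: every sub-leaf of T6.13.2 except
`TorusC` (row 1113) is discharged by the vendored byte-identical files of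
helper546 (`PolyNFC`), helper926 (`DiscUnitC`), helper69 (`FixBallC`), helper439 (`BallCountC`),
helper293 + helper338 (`BTTreeC`), helper277 (`CompanionC`, assembly).
-/

set_option autoImplicit false

namespace Fermat.Agent.LT.T6.H277

open Fermat.Agent.LT.T6

/-- **T6.13.2 `OrbEllUnrC`** from `TorusC` alone. -/
theorem orbEllUnr_of_torus277 (hT : TorusC) : H60.OrbEllUnrC :=
  orbEllUnr_of_leaves' H546.polyNFC_h546 H926.discUnitC_926 H69.fixBallC69 hT H293.btTreeC293
    H439.ballCountC_h439

end Fermat.Agent.LT.T6.H277
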