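import Mathlib
import Fermat.Agent.LT.T6.H277.OrbEllClosed
import Fermat.Agent.LT.T6.H60.EllUnrSpec2

/-!
# Row LT, tower T6, sub-leaf T6.13.2b `FixGeoC` of helper60 (helper277, spare of row 1132)

OFF-MAIN.  `fixGeoC277 : H60.FixGeoC`, UNCONDITIONAL: on the tree `BTVert340` of helper340 a
regular elliptic `γ` with `k[γ]/k` unramified fixes exactly the ball of radius `r` around the
vertex `[x]`, where `x⁻¹ γ x` is in normal form (`exists_nf277`, `FixBallC`, `BallCountC`).
-/

set_option autoImplicit false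

open scoped Matrix

noncomputable section

namespace Fermat.Agent.LT.T6.H277

open Fermat.Agent.LT.T6 Fermat.Agent.LT.T6.H60 Fermat.Agent.LT.T6.H340 Fermat.Agent.LT.H338

/-- The fixed vertices of `γ` on the tree of helper340: the ball of radius `r` around `[x]`. -/
theorem fix_eq_ball277 {k : Type} [Field k] [Valued k Γ₀] {ϖ : k} {j : ℤ} {r : ℕ} {a : k}
    {w u y : GL (Fin 2) k} (hNF : IsNF277 ϖ j r a w u y) (γ x : GL (Fin 2) k)
    (hy : y = x⁻¹ * γ * x) :
    {v : BTVert340 k | btMul340 γ v = v} = {v | btDist340 (btMk340 x) v ≤ r} := by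
  ext v
  obtain ⟨g, rfl⟩ := btMk340_surjective v
  rw [Set.mem_ofPred_eq, Set.mem_ofPred_eq, btDist340_mk]
  have h1 : btMul340 γ (btMk340 g) = btMk340 g ↔ cdist340 (g⁻¹ * γ * g) = 0 := by
    rw [← btDist340_mul_mk, btDist340_eq_zero]
    exact eq_comm
  have h2 := H69.fixBallC69 k ϖ j r a w u y hNF (x⁻¹ * g)
  have e : (x⁻¹ * g)⁻¹ * y * (x⁻¹ * g) = g⁻¹ * γ * g := by
    rw [hy]; group
  rw [e] at h2
  unfold gd277 at h2
  rw [cartan_fst_sub_snd340, cartan_fst_sub_snd340] at h2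
  rw [h1]
  constructor
  · intro h
    have := h2.mp (by exact_mod_cast h)
    exact_mod_cast this
  · intro h
    have := h2.mpr (by exact_mod_cast h)
    exact_mod_cast this

/-- **T6.13.2b `FixGeoC`** (helper60 `EllUnrSpec2.lean`), unconditional. -/
theorem fixGeoC277 : FixGeoC := by
  intro k _ _ q hk γ _hreg hE hR
  obtain ⟨ϖ, j, r, a, w, u, y, x, hNF, hy, hdet, hdisc⟩ :=
    exists_nf277 H546.polyNFC_h546 companionC277 H926.discUnitC_926 hk γ hE hR
  refine ⟨j, r, hdet, hdisc, ?_⟩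
  rw [fix_eq_ball277 hNF γ x hy]
  exact H439.ballCountC_h439 (BTVert340 k) btDist340 q (isTreeDist_btDist340 hk)
    (ncard_nb_btDist340 hk) (btMk340 x) r

end Fermat.Agent.LT.T6.H277
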