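import Mathlib
import Fermat.Agent.LT.T6.H277.OrbEllSpec
import Fermat.Agent.LT.T6.H277.OrbEllUnfold

/-!
# Row LT, tower T6, sub-leaf T6.13.2.5 `TorusC` (helper277, spare of row 1113) -- OFF-MAIN

For `y = ϖ^j (a + ϖ^r w)` in normal form the centraliser of `y` is `{x + z w}`, the determinant
of `x + z w` has valuation `max (|x|, |z|)²`, hence the centraliser is `ϖ^ℤ × T^c` and
`T^c = {x + z w : max (|x|, |z|) = 1}` is closed under multiplication.
-/

set_option autoImplicit false

open scoped Matrix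

noncomputable section

namespace Fermat.Agent.LT.T6.H277

open Fermat.Agent.LT.T6 Fermat.Agent.LT.T6.H60 Fermat.Agent.LT.H129

section

variable {k : Type} [Field k] [Valued k Γ₀]

/-- The valuation of the norm form of a quadratic polynomial without root modulo `ϖ`. -/
theorem v_norm277 {t n : k} (ht : Valued.v t ≤ 1) (hn : Valued.v n ≤ 1)
    (hirr : ∀ b : k, Valued.v b ≤ 1 → Valued.v (chi277 t n b) = 1) (x z : k) :
    Valued.v (x ^ 2 + t * x * z + n * z ^ 2) = (max (Valued.v x) (Valued.v z)) ^ 2 := by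
  rcases le_or_gt (Valued.v x) (Valued.v z) with h | h
  · rw [max_eq_right h]
    by_cases hz : z = 0
    · subst hz
      rw [map_zero] at h
      have hx : x = 0 := by
        have : Valued.v x = 0 := le_antisymm h zero_le
        exact (map_eq_zero _).mp this
      subst hx
      simp
    · have hvz : Valued.v z ≠ 0 := by rwa [ne_eq, map_eq_zero]
      have hb : Valued.v (-x / z) ≤ 1 := by
        rw [map_div₀, Valuation.map_neg, div_le_one₀ (zero_lt_iff.mpr hvz)]
        exact h
      have e : x ^ 2 + t * x * z + n * z ^ 2 = z ^ 2 * chi277 t n (-x / z) := by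
        unfold chi277
        field_simp
        ring
      rw [e, map_mul, hirr _ hb, mul_one, map_pow]
  · rw [max_eq_left h.le]
    have hx : x ≠ 0 := by
      intro hx
      rw [hx, map_zero] at h
      exact not_lt.mpr zero_le h
    have hvx : Valued.v x ≠ 0 := by rwa [ne_eq, map_eq_zero]
    have hc : Valued.v (z / x) < 1 := by
      rw [map_div₀, div_lt_one₀ (zero_lt_iff.mpr hvx)]
      exact h
    have he : Valued.v (t * (z / x) + n * (z / x) ^ 2) < 1 := by
      refine lt_of_le_of_lt (Valuation.map_add _ _ _) (max_lt ?_ ?_)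
      · rw [map_mul]
        exact lt_of_le_of_lt (mul_le_mul' ht le_rfl) (by rwa [one_mul])
      · rw [map_mul, map_pow]
        have h2 : Valued.v (z / x) ^ 2 < 1 := by
          calc Valued.v (z / x) ^ 2 = Valued.v (z / x) * Valued.v (z / x) := sq _
            _ ≤ 1 * Valued.v (z / x) := mul_le_mul' hc.le le_rfl
            _ = Valued.v (z / x) := one_mul _
            _ < 1 := hc
        exact lt_of_le_of_lt (mul_le_mul' hn le_rfl) (by rwa [one_mul])
    have e : x ^ 2 + t * x * z + n * z ^ 2 = x ^ 2 * (1 + (t * (z / x) + n * (z / x) ^ 2)) := by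
      field_simp
      ring
    rw [e, map_mul, Valuation.map_one_add_of_lt _ he, mul_one, map_pow]

theorem sq_eq_one277 {m : Γ₀} (h : m ^ 2 = 1) : m = 1 := by
  rcases lt_trichotomy m 1 with h1 | h1 | h1
  · exfalso
    have : m ^ 2 < 1 := by
      calc m ^ 2 = m * m := sq m
        _ ≤ 1 * m := mul_le_mul' h1.le le_rfl
        _ = m := one_mul m
        _ < 1 := h1
    rw [h] at this
    exact lt_irrefl _ this
  · exact h1
  · exfalso
    have : 1 < m ^ 2 := one_lt_pow' h1 (by norm_num)
    rw [h] at this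
    exact lt_irrefl _ this

end

/-- **T6.13.2.5 `TorusC`.** -/
theorem torusC277 : TorusC := by
  intro k _ _ ϖ j r a w u y hNF
  have hϖ0 : ϖ ≠ 0 := unif_ne_zero277 hNF.unif
  set W : Matrix (Fin 2) (Fin 2) k := (w : Matrix (Fin 2) (Fin 2) k) with hW
  have hWint : ∀ i j, Valued.v (W i j) ≤ 1 := by
    have := (inU_zero_iff129 w).mp hNF.w_int
    exact fun i j => this.1 i j
  have htr : W.trace = W 0 0 + W 1 1 := Matrix.trace_fin_two W
  have hdet : W.det = W 0 0 * W 1 1 - W 0 1 * W 1 0 := Matrix.det_fin_two W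
  have htrint : Valued.v W.trace ≤ 1 := inU_zero_trace277 hNF.w_int
  have hdetint : Valued.v W.det ≤ 1 := (inU_zero_det277 hNF.w_int).le
  have hirr := hNF.w_irr
  have hoff : Valued.v (W 0 1 * W 1 0) = 1 := by
    have h := hirr (W 0 0) (hWint 0 0)
    have e : chi277 W.trace W.det (W 0 0) = - (W 0 1 * W 1 0) := by
      unfold chi277; rw [htr, hdet]; ring
    rw [e, Valuation.map_neg] at h
    exact h
  have h01 : W 0 1 ≠ 0 := by
    intro h
    rw [h, zero_mul, map_zero] at hoff
    exact zero_ne_one hoff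
  have h10 : W 1 0 ≠ 0 := by
    intro h
    rw [h, mul_zero, map_zero] at hoff
    exact zero_ne_one hoff
  have hP0 : ϖ ^ j * ϖ ^ r ≠ 0 := mul_ne_zero (zpow_ne_zero _ hϖ0) (pow_ne_zero _ hϖ0)
  have hY : (y : Matrix (Fin 2) (Fin 2) k)
      = (ϖ ^ j * a) • (1 : Matrix (Fin 2) (Fin 2) k) + (ϖ ^ j * ϖ ^ r) • W := by
    rw [hNF.y_eq, hNF.u_eq, smul_add, smul_smul, smul_smul]
  -- commuting with `y` is commuting with `W`
  have hcomm : ∀ T : Matrix (Fin 2) (Fin 2) k,
      T * (y : Matrix (Fin 2) (Fin 2) k) = (y : Matrix (Fin 2) (Fin 2) k) * T ↔ T * W = W * T := by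
    intro T
    rw [hY]
    simp only [Matrix.mul_add, Matrix.add_mul, Matrix.mul_smul, Matrix.smul_mul, Matrix.mul_one,
      Matrix.one_mul]
    constructor
    · intro h
      have h2 : (ϖ ^ j * ϖ ^ r) • (T * W) = (ϖ ^ j * ϖ ^ r) • (W * T) := add_left_cancel h
      have h3 := congrArg (fun M => (ϖ ^ j * ϖ ^ r)⁻¹ • M) h2
      simp only [smul_smul, inv_mul_cancel₀ hP0, one_smul] at h3
      exact h3
    · intro h
      rw [h]
  -- the centraliser of `W`
  have hcent : ∀ T : Matrix (Fin 2) (Fin 2) k, T * W = W * T →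
      ∃ x z : k, T = x • (1 : Matrix (Fin 2) (Fin 2) k) + z • W := by
    intro T hT
    have e00 := congrFun (congrFun hT 0) 0
    have e01 := congrFun (congrFun hT 0) 1
    simp only [Matrix.mul_apply, Fin.sum_univ_two] at e00 e01
    refine ⟨T 0 0 - T 0 1 / W 0 1 * W 0 0, T 0 1 / W 0 1, ?_⟩
    ext i j
    fin_cases i <;> fin_cases j
    · simp [Matrix.add_apply, Matrix.smul_apply]
    · simp [Matrix.add_apply, Matrix.smul_apply]
      field_simp
    · simp [Matrix.add_apply, Matrix.smul_apply]
      field_simp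
      linear_combination (-1 : k) * e00
    · simp [Matrix.add_apply, Matrix.smul_apply]
      field_simp
      linear_combination (-1 : k) * e01
  have hNdet : ∀ x z : k, (x • (1 : Matrix (Fin 2) (Fin 2) k) + z • W).det
      = x ^ 2 + W.trace * x * z + W.det * z ^ 2 := by
    intro x z
    rw [Matrix.det_fin_two, htr, hdet]
    simp [Matrix.add_apply, Matrix.smul_apply]
    ring
  have hNv : ∀ x z : k, Valued.v (x • (1 : Matrix (Fin 2) (Fin 2) k) + z • W).det
      = (max (Valued.v x) (Valued.v z)) ^ 2 := by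
    intro x z
    rw [hNdet]
    exact v_norm277 htrint hdetint hirr x z
  have hWW : ∀ x z : k, (x • (1 : Matrix (Fin 2) (Fin 2) k) + z • W) * W
      = W * (x • (1 : Matrix (Fin 2) (Fin 2) k) + z • W) := by
    intro x z
    simp only [Matrix.mul_add, Matrix.add_mul, Matrix.mul_smul, Matrix.smul_mul, Matrix.mul_one,
      Matrix.one_mul]
  -- `InTwCent` for the identity is commutation
  have hcent_iff : ∀ t : GL (Fin 2) k, InTwCent (RingEquiv.refl k) y t ↔ t * y = y * t := by
    intro t
    unfold InTwCent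
    rw [glAut_refl277]
    constructor
    · intro h
      have : t * (t⁻¹ * y * t) = t * y := by rw [h]
      rw [← this]; simp [mul_assoc]
    · intro h
      rw [mul_assoc, ← h, ← mul_assoc, inv_mul_cancel, one_mul]
  have hcommGL : ∀ t : GL (Fin 2) k, t * y = y * t ↔
      (t : Matrix (Fin 2) (Fin 2) k) * W = W * (t : Matrix (Fin 2) (Fin 2) k) := by
    intro t
    rw [← hcomm]
    constructor
    · intro h
      have := congrArg (fun g : GL (Fin 2) k => (g : Matrix (Fin 2) (Fin 2) k)) h
      simpa [Units.val_mul] using this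
    · intro h
      apply Units.ext
      rw [Units.val_mul, Units.val_mul]
      exact h
  -- elements of `T^c` are `x + z W` with `x, z` integral
  have hTc : ∀ t : GL (Fin 2) k, InTwCentC (RingEquiv.refl k) y t →
      ∀ i j, Valued.v ((t : Matrix (Fin 2) (Fin 2) k) i j) ≤ 1 := by
    rintro t ⟨h1, -, h3⟩
    obtain ⟨x, z, hxz⟩ := hcent _ ((hcommGL t).mp ((hcent_iff t).mp h1))
    have hv := hNv x z
    rw [← hxz, h3] at hv
    have hmax : max (Valued.v x) (Valued.v z) = 1 := sq_eq_one277 hv.symm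
    have hx : Valued.v x ≤ 1 := hmax ▸ le_max_left _ _
    have hz : Valued.v z ≤ 1 := hmax ▸ le_max_right _ _
    intro i j
    rw [hxz]
    simp only [Matrix.add_apply, Matrix.smul_apply, smul_eq_mul]
    refine le_trans (Valuation.map_add _ _ _) (max_le ?_ ?_)
    · rw [map_mul]
      refine mul_le_one' hx ?_
      by_cases hij : i = j
      · rw [Matrix.one_apply, if_pos hij, map_one]
      · rw [Matrix.one_apply, if_neg hij, map_zero]; exact zero_le
    · rw [map_mul]
      exact mul_le_one' hz (hWint i j)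
  refine ⟨?_, ?_⟩
  · -- decomposition
    intro t ht
    obtain ⟨x, z, hxz⟩ := hcent _ ((hcommGL t).mp ht)
    have hv := hNv x z
    rw [← hxz] at hv
    have hdet0 : (t : Matrix (Fin 2) (Fin 2) k).det ≠ 0 :=
      ((Matrix.isUnit_iff_isUnit_det _).mp t.isUnit).ne_zero
    have hm0 : max (Valued.v x) (Valued.v z) ≠ 0 := by
      intro h0
      rw [h0] at hv
      simp at hv
      exact hdet0 hv
    set n : ℤ := - WithZero.log (max (Valued.v x) (Valued.v z)) with hn
    have hvn : Valued.v (ϖ ^ n) = max (Valued.v x) (Valued.v z) := by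
      rw [v_zpow277 hNF.unif, hn, neg_neg, WithZero.exp_log hm0]
    have hpn0 : ϖ ^ n ≠ 0 := zpow_ne_zero _ hϖ0
    set K : Matrix (Fin 2) (Fin 2) k :=
      (x / ϖ ^ n) • (1 : Matrix (Fin 2) (Fin 2) k) + (z / ϖ ^ n) • W with hK
    have hmax1 : max (Valued.v (x / ϖ ^ n)) (Valued.v (z / ϖ ^ n)) = 1 := by
      rw [map_div₀, map_div₀, hvn]
      have hpos : (0 : Γ₀) < max (Valued.v x) (Valued.v z) := zero_lt_iff.mpr hm0
      rcases le_total (Valued.v x) (Valued.v z) with h | h
      · rw [max_eq_right h] at hpos ⊢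
        rw [max_eq_right ((div_le_div_iff_of_pos_right hpos).mpr h)]
        exact div_self hpos.ne'
      · rw [max_eq_left h] at hpos ⊢
        rw [max_eq_left ((div_le_div_iff_of_pos_right hpos).mpr h)]
        exact div_self hpos.ne'
    have hKv : Valued.v K.det = 1 := by
      rw [hK, hNv, hmax1, one_pow]
    have hK0 : K.det ≠ 0 := by
      intro h
      rw [h, map_zero] at hKv
      exact zero_ne_one hKv
    have htK : (t : Matrix (Fin 2) (Fin 2) k) = ϖ ^ n • K := by
      rw [hxz, hK, smul_add, smul_smul, smul_smul, mul_div_cancel₀ _ hpn0,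
        mul_div_cancel₀ _ hpn0]
    refine ⟨n, mk277 K hK0, ⟨?_, ?_, ?_⟩, ?_⟩
    · rw [hcent_iff, hcommGL, coe_mk277, hK]
      exact hWW _ _
    · rw [coe_mk277, hK, Matrix.trace_add, Matrix.trace_smul, Matrix.trace_smul, Matrix.trace_one]
      have hx1 : Valued.v (x / ϖ ^ n) ≤ 1 := hmax1 ▸ le_max_left _ _
      have hz1 : Valued.v (z / ϖ ^ n) ≤ 1 := hmax1 ▸ le_max_right _ _
      refine le_trans (Valuation.map_add _ _ _) (max_le ?_ ?_)
      · simp only [Fintype.card_fin, smul_eq_mul, map_mul]
        refine mul_le_one' hx1 ?_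
        have : ((2 : ℕ) : k) = 1 + 1 := by norm_num
        rw [this]
        exact le_trans (Valuation.map_add _ _ _) (max_le (by simp) (by simp))
      · simp only [smul_eq_mul, map_mul]
        exact mul_le_one' hz1 htrint
    · rw [coe_mk277]; exact hKv
    · rw [coe_mk277]; exact htK
  · -- closed under multiplication
    rintro t t' ht ht'
    have hi := hTc t ht
    have hi' := hTc t' ht'
    obtain ⟨h1, -, h3⟩ := ht
    obtain ⟨h1', -, h3'⟩ := ht'
    refine ⟨?_, ?_, ?_⟩
    · rw [hcent_iff] at h1 h1' ⊢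
      rw [mul_assoc, h1', ← mul_assoc, h1, mul_assoc]
    · rw [Units.val_mul, Matrix.trace_fin_two]
      simp only [Matrix.mul_apply, Fin.sum_univ_two]
      have hmul : ∀ a b c d : k, Valued.v a ≤ 1 → Valued.v b ≤ 1 → Valued.v c ≤ 1 →
          Valued.v d ≤ 1 → Valued.v (a * b + c * d) ≤ 1 := by
        intro a b c d ha hb hc hd
        refine le_trans (Valuation.map_add _ _ _) (max_le ?_ ?_)
        · rw [map_mul]; exact mul_le_one' ha hb
        · rw [map_mul]; exact mul_le_one' hc hd
      refine le_trans (Valuation.map_add _ _ _) (max_le ?_ ?_)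
      · exact hmul _ _ _ _ (hi 0 0) (hi' 0 0) (hi 0 1) (hi' 1 0)
      · exact hmul _ _ _ _ (hi 1 0) (hi' 0 1) (hi 1 1) (hi' 1 1)
    · rw [Units.val_mul, Matrix.det_mul, map_mul, h3, h3', one_mul]

end Fermat.Agent.LT.T6.H277
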