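import Mathlib
import Fermat.Agent.LT.T6.H277.OrbEllClosed
import Fermat.Agent.LT.T6.H277.Torus

/-!
# Row LT, tower T6, leaf T6.13.2 `OrbEllUnrC` -- CLOSED (helper277), OFF-MAIN

`orbEllUnrC277 : H60.OrbEllUnrC`, UNCONDITIONAL: the orbital integral of a spherical function at
a regular elliptic `γ` with `k[γ]/k` unramified is the weighted count `∑ f(λ) wGeo q r j λ` on
the tree of `k`.

Sub-leaves: helper546 (`PolyNFC`), helper926 (`DiscUnitC`), helper69 (`FixBallC`),
helper439 (`BallCountC`), helper293 + helper338 (`BTTreeC`), helper277 (`CompanionC`, `TorusC`,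
assembly); shared lemmas of helper227 (unfolding), helper338 (tree counts), helper129 (Cartan
decomposition, Newton), helper944 (`InU`, `InTwCentC`).
-/

set_option autoImplicit false

namespace Fermat.Agent.LT.T6.H277

open Fermat.Agent.LT.T6

/-- **T6.13.2 `OrbEllUnrC`**, unconditional. -/
theorem orbEllUnrC277 : H60.OrbEllUnrC :=
  orbEllUnr_of_torus277 torusC277

end Fermat.Agent.LT.T6.H277
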